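import Fermat.Agent.Lib.TW.Euler.InputE.Units
import Fermat.Agent.Lib.TW.Euler.Input
import Fermat.Agent.Lib.TW.Euler.CyclicClass
import Fermat.Agent.Lib.CFT.Bridge.PTDataFinal
import Fermat.Agent.Lib.CFT.Bridge.LocalPlace
import Fermat.Agent.Lib.CFT.Global.SemiLocalH90

/-!
# P10 / G4 leaf (E): the arithmetic inputs of the Euler characteristic formula for the concrete
`PTData`

`eulerInput_ptDataOfInputs` : `EulerInput (ptDataOfInputs …)`:
* `fg`   : `SUnits.moduleFinite`;
* `rank` : `eie_rank_general` (Dirichlet's `S`-unit theorem for the fixed fields, places counted by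
           double cosets) + `decomp_eq_decompGroup` + the Prelude's complex conjugation;
* `h90`  : `SL.isZero_H1_units` for the subgroup `W`.
-/

set_option autoImplicit false
set_option linter.style.haveILetI false
set_option linter.unusedSectionVars false

open CategoryTheory

namespace Fermat.Agent.TW

open Fermat.Agent.CFT Fermat.Agent.CFT.Duality Fermat.Agent.CFT.Bridge Fermat.Agent.CFT.Global

noncomputable section

/-- the complex embedding of the field of a level -/
def eieEmb (L : Level) : L.field →+* ℂ :=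
  complexEmbedding.toRingHom.comp L.toIntermediateField.val.toRingHom

lemma eieEmb_cbar (L : Level) (x : L.field) :
    eieEmb L (ecCbar L • x) = starRingEnd ℂ (eieEmb L x) := by
  change complexEmbedding (((L.proj complexConjugation • x : L.field)) : Qbar) = _
  rw [Level.coe_proj_smul, complexEmbedding_complexConjugation]
  rfl

section H90

variable {q : ℕ} [Fact q.Prime] {L : Type} [Field L] [NumberField L]
  {G : Type} [Group G] [Finite G] [MulSemiringAction G L] [FaithfulSMul G L]

/-- Hilbert 90 for the semi-local units, for subgroups -/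
theorem eie_h90_general (W : Subgroup G) :
    Limits.IsZero (groupCohomology (Rep.res W.subtype
      (Rep.ofMulDistribMulAction G (SL q L)ˣ)) 1) := by
  haveI : FaithfulSMul W L := ⟨fun {a b} h => Subtype.ext (eq_of_smul_eq_smul (α := L) h)⟩
  exact SL.isZero_H1_units (q := q) (L := L) (G := W)

end H90

variable (S : Finset Nat.Primes) (L₀ : Level) (h₀ : L₀.IsS S)

/-- Dirichlet's `S`-unit theorem for the subfields of `L₀`, in the form of `EulerInput.rank` -/
theorem eie_rank (W : Subgroup L₀.G) :
    Module.finrank ℤ (ecInv ((Etow S L₀ h₀).C (botS S L₀ h₀)) W) + 1 =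
      ecNumPlaces W (Subgroup.zpowers (ecCbar L₀)) + ∑ q : ↥S, ecNumPlaces W (decomp q.1 L₀) := by
  have h := eie_rank_general (K := L₀.field) (G := L₀.G) S W (eieEmb L₀) (ecCbar L₀)
    (eieEmb_cbar L₀) (fun q => L₀.place ((q : Nat.Primes) : ℕ))
  have h2 : ∀ q : ↥S, decomp q.1 L₀ = decompGroup L₀.G (L₀.place ((q : Nat.Primes) : ℕ)) :=
    fun q => decomp_eq_decompGroup q.1 L₀
  simp only [h2]
  rw [← h]
  rfl

/-- Hilbert 90 for the semi-local units in the tower of `S`-levels -/
theorem eie_h90 (q : ↥S) (L : (towerS S L₀ h₀).ι) (W : Subgroup ((towerS S L₀ h₀).G L)) :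
    Limits.IsZero (groupCohomology ((Jtow S L₀ h₀ q).atSub L W) 1) := by
  change Subgroup L.1.1.G at W
  exact eie_h90_general (q := ((q : Nat.Primes) : ℕ)) (L := L.1.1.field) (G := L.1.1.G) W

/-- **G4 leaf (E)**: the concrete `PTData` satisfies `EulerInput`. -/
theorem eulerInput_ptDataOfInputs (p : ℕ) [Fact p.Prime] (S : Finset Nat.Primes) (hp2 : p ≠ 2)
    (hpS : ExtCitation.pPrime p ∈ S) (hord : OrderInput p S) (hres : ResInput p S)
    (hinj : LocInjInput p S) (L₀ : Level) (h₀ : L₀.IsS S) (hμ : HasMu p L₀) :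
    EulerInput (ptDataOfInputs p S hp2 hpS hord hres hinj L₀ h₀ hμ) := by
  refine ⟨?_, ?_, ?_⟩
  · exact eca_finite_int_of _ _ (SUnits.moduleFinite S L₀.field)
  · intro W
    exact eie_rank S L₀ h₀ W
  · intro q L W x _
    have hs : Subsingleton (groupCohomology
        (((ptDataOfInputs p S hp2 hpS hord hres hinj L₀ h₀ hμ).J q).atSub L W) 1) :=
      ModuleCat.subsingleton_of_isZero (eie_h90 S L₀ h₀ q L W)
    exact hs.elim _ _

end

end Fermat.Agent.TW
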