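import Fermat.Agent.Lib.TW.Euler.Inv

/-!
# P10 / G4 leaf (E), part 1: counting double cosets

`eie_card_eq_ecNumPlaces` : if `π : G → Y` is surjective and its fibres are the double cosets
`W g D`, then `#Y = ecNumPlaces W D` (the number of `W`-orbits on `G ⧸ D`).
-/

set_option autoImplicit false

namespace Fermat.Agent.TW

noncomputable section

/-- a surjection from `G` whose fibres are the `(W, D)`-double cosets has `ecNumPlaces W D`
values -/
theorem eie_card_eq_ecNumPlaces {G : Type} [Group G] (W D : Subgroup G) {Y : Type} (π : G → Y)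
    (hsurj : Function.Surjective π)
    (hπ : ∀ g g' : G, π g = π g' ↔ ∃ w ∈ W, ∃ d ∈ D, g' = w * g * d) :
    Nat.card Y = ecNumPlaces W D := by
  -- descend to `G ⧸ D`
  have h1 : ∀ a b : G, QuotientGroup.leftRel D a b → π a = π b := by
    intro a b hab
    rw [QuotientGroup.leftRel_apply] at hab
    exact (hπ a b).2 ⟨1, W.one_mem, a⁻¹ * b, hab, by group⟩
  let π' : G ⧸ D → Y := Quotient.lift π h1
  have hπ' : ∀ a : G, π' (QuotientGroup.mk a) = π a := fun a => rfl
  -- descend to the orbits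
  have h2 : ∀ x y : G ⧸ D, MulAction.orbitRel W (G ⧸ D) x y → π' x = π' y := by
    intro x y hxy
    obtain ⟨a, rfl⟩ := QuotientGroup.mk_surjective x
    obtain ⟨b, rfl⟩ := QuotientGroup.mk_surjective y
    rw [MulAction.orbitRel_apply] at hxy
    obtain ⟨w, hw⟩ := hxy
    have hw' : (QuotientGroup.mk ((w : G) * b) : G ⧸ D) = QuotientGroup.mk a := hw
    rw [QuotientGroup.eq] at hw'
    rw [hπ', hπ']
    exact ((hπ b a).2 ⟨w, w.2, ((w : G) * b)⁻¹ * a, hw', by group⟩).symm
  let π'' : MulAction.orbitRel.Quotient W (G ⧸ D) → Y := Quotient.lift π' h2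
  have hπ'' : ∀ a : G, π'' (Quotient.mk'' (QuotientGroup.mk a)) = π a := fun a => rfl
  have hbij : Function.Bijective π'' := by
    constructor
    · intro x y hxy
      induction x using Quotient.inductionOn' with
      | h x =>
      induction y using Quotient.inductionOn' with
      | h y =>
      obtain ⟨a, rfl⟩ := QuotientGroup.mk_surjective x
      obtain ⟨b, rfl⟩ := QuotientGroup.mk_surjective y
      rw [hπ'', hπ''] at hxy
      obtain ⟨w, hw, d, hd, hb⟩ := (hπ a b).1 hxy
      apply Quotient.sound'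
      rw [MulAction.orbitRel_apply]
      refine ⟨⟨w, hw⟩⁻¹, ?_⟩
      change (QuotientGroup.mk ((w : G)⁻¹ * b) : G ⧸ D) = QuotientGroup.mk a
      rw [QuotientGroup.eq, hb]
      have : (w⁻¹ * (w * a * d))⁻¹ * a = d⁻¹ := by group
      rw [this]
      exact D.inv_mem hd
    · intro y
      obtain ⟨a, rfl⟩ := hsurj y
      exact ⟨Quotient.mk'' (QuotientGroup.mk a), rfl⟩
  exact (Nat.card_congr (Equiv.ofBijective π'' hbij)).symm

/-- variant: `Y` is the set of orbits of `W` on a transitive `G`-set -/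
theorem eie_card_of_transitive {G : Type} [Group G] (W : Subgroup G) {X Y : Type} [MulAction G X]
    (x₀ : X) (htrans : ∀ x : X, ∃ g : G, g • x₀ = x) (ν : X → Y) (hν : Function.Surjective ν)
    (hfib : ∀ x x' : X, ν x = ν x' ↔ ∃ w ∈ W, w • x = x') :
    Nat.card Y = ecNumPlaces W (MulAction.stabilizer G x₀) := by
  refine eie_card_eq_ecNumPlaces W (MulAction.stabilizer G x₀) (fun g => ν (g • x₀)) ?_ ?_
  · intro y
    obtain ⟨x, rfl⟩ := hν y
    obtain ⟨g, rfl⟩ := htrans x
    exact ⟨g, rfl⟩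
  · intro g g'
    rw [hfib]
    constructor
    · rintro ⟨w, hw, h⟩
      refine ⟨w, hw, g⁻¹ * w⁻¹ * g', ?_, by group⟩
      rw [MulAction.mem_stabilizer_iff, mul_smul, mul_smul, ← h, inv_smul_smul, inv_smul_smul]
    · rintro ⟨w, hw, d, hd, rfl⟩
      refine ⟨w, hw, ?_⟩
      rw [MulAction.mem_stabilizer_iff] at hd
      rw [mul_smul, mul_smul, hd]

end

end Fermat.Agent.TW
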