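import Fermat.Agent.Lib.TW.Euler.InputE.Orbits
import Fermat.Agent.Lib.CFT.Global.Induced
import Fermat.Agent.Lib.CFT.Global.PlacesOver

/-!
# P10 / G4 leaf (E), part 2: the number of places of a fixed field

For a number field `K` with a finite group `G` acting as a Galois group of `K / ℚ` and `W ≤ G`, the
fixed field `F = K^W` has
* `ecNumPlaces W (decompGroup G x₀)` places above `q` (`x₀` any place of `K` above `q`);
* `ecNumPlaces W ⟨c⟩` infinite places (`c ∈ G` inducing complex conjugation for an embedding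
  `K → ℂ`).
-/

set_option autoImplicit false
set_option linter.style.haveILetI false
set_option linter.unusedSectionVars false

namespace Fermat.Agent.TW

open Fermat.Agent.CFT Fermat.Agent.CFT.Global NumberField

noncomputable section

section Finite

variable {q : ℕ} [Fact q.Prime] {K : Type} [Field K] [NumberField K] {G : Type} [Group G]
  [Finite G] [MulSemiringAction G K] [IsGaloisGroup G ℚ K]

/-- the action of a subgroup on the places is the restricted action -/
lemma eie_subgroup_smul_place (W : Subgroup G) (w : W) (x : Place q K) :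
    (w • x : Place q K) = (w : G) • x := rfl

/-- the number of places of the fixed field of `W` above `q` -/
theorem eie_card_place_fixedField (W : Subgroup G) (x₀ : Place q K) :
    Nat.card (Place q (FixedPoints.intermediateField W : IntermediateField ℚ K)) =
      ecNumPlaces W (decompGroup G x₀) := by
  set F : IntermediateField ℚ K := FixedPoints.intermediateField W with hF
  haveI : IsGaloisGroup W F K := IsGaloisGroup.subgroup G ℚ K W
  refine eie_card_of_transitive W x₀ (fun x => Place.exists_smul_eq_of_rat x₀ x)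
    (Place.under (algebraMap F K)) (Place.under_surjective _) ?_
  intro x x'
  constructor
  · intro h
    obtain ⟨w, hw⟩ := Place.exists_smul_eq_of_under_eq (G := W) h
    exact ⟨w, w.2, hw⟩
  · rintro ⟨w, hw, rfl⟩
    exact (Place.under_smul (K := F) (G := W) ⟨w, hw⟩ x).symm

end Finite

section Infinite

variable {K : Type} [Field K] [NumberField K] {G : Type} [Group G]
  [Finite G] [MulSemiringAction G K] [IsGaloisGroup G ℚ K]

/-- an element inducing complex conjugation has order `≤ 2` -/
lemma eie_conj_sq (φ₀ : K →+* ℂ) (c : G)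
    (hc : ∀ x : K, φ₀ (c • x) = starRingEnd ℂ (φ₀ x)) : c * c = 1 := by
  haveI : FaithfulSMul G K := IsGaloisGroup.faithful ℚ
  apply eq_of_smul_eq_smul (α := K)
  intro x
  apply φ₀.injective
  rw [mul_smul, hc, hc, Complex.conj_conj, one_smul]

lemma eie_mem_zpowers_conj (φ₀ : K →+* ℂ) (c : G)
    (hc : ∀ x : K, φ₀ (c • x) = starRingEnd ℂ (φ₀ x)) {d : G} (hd : d ∈ Subgroup.zpowers c) :
    d = 1 ∨ d = c := by
  have hcc := eie_conj_sq φ₀ c hc
  obtain ⟨n, rfl⟩ := Subgroup.mem_zpowers_iff.1 hd
  have h2 : c ^ (2 : ℤ) = 1 := by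
    rw [zpow_ofNat, sq, hcc]
  rcases Int.even_or_odd' n with ⟨m, rfl | rfl⟩
  · left
    rw [zpow_mul, h2, one_zpow]
  · right
    rw [zpow_add, zpow_mul, h2, one_zpow, one_mul, zpow_one]

/-- the number of infinite places of the fixed field of `W` -/
theorem eie_card_infinitePlace_fixedField (W : Subgroup G) (φ₀ : K →+* ℂ) (c : G)
    (hc : ∀ x : K, φ₀ (c • x) = starRingEnd ℂ (φ₀ x)) :
    Nat.card (InfinitePlace (FixedPoints.intermediateField W : IntermediateField ℚ K)) =
      ecNumPlaces W (Subgroup.zpowers c) := by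
  set F : IntermediateField ℚ K := FixedPoints.intermediateField W with hF
  haveI : FaithfulSMul G K := IsGaloisGroup.faithful ℚ
  haveI : IsGalois ℚ K := IsGaloisGroup.isGalois G ℚ K
  have hfix : ∀ g : G, (∀ x : F, g • (x : K) = x) → g ∈ W := by
    intro g hg
    rw [← IsGaloisGroup.fixingSubgroup_fixedPoints G ℚ K W, mem_fixingSubgroup_iff]
    intro y hy
    exact hg ⟨y, hy⟩
  have hWfix : ∀ w ∈ W, ∀ x : F, w • (x : K) = x := by
    intro w hw x
    exact x.2 ⟨w, hw⟩
  have hcc := eie_conj_sq φ₀ c hc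
  have hcinv : c⁻¹ = c := inv_eq_of_mul_eq_one_right hcc
  refine eie_card_eq_ecNumPlaces W (Subgroup.zpowers c)
    (fun g => InfinitePlace.mk ((φ₀.comp (MulSemiringAction.toRingHom G K g⁻¹)).comp
      (algebraMap F K))) ?_ ?_
  · -- surjectivity
    intro v
    obtain ⟨v', hv''⟩ := InfinitePlace.comap_surjective (k := F) (K := K) v
    have hv' : v'.comap (algebraMap F K) = v := hv''
    obtain ⟨σ, hσ⟩ := ComplexEmbedding.exists_comp_symm_eq_of_comp_eq (k := ℚ) φ₀ v'.embedding
      (Subsingleton.elim _ _)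
    refine ⟨(IsGaloisGroup.mulEquivAlgEquiv G ℚ K).symm σ, ?_⟩
    change InfinitePlace.mk _ = v
    rw [← hv', ← InfinitePlace.mk_embedding v', InfinitePlace.comap_mk, ← hσ]
    congr 2
    ext x
    change φ₀ (((IsGaloisGroup.mulEquivAlgEquiv G ℚ K).symm σ)⁻¹ • x) = φ₀ (σ.symm x)
    rw [← map_inv, ← IsGaloisGroup.mulEquivAlgEquiv_apply_apply G ℚ K, MulEquiv.apply_symm_apply]
    rfl
  · -- fibres
    intro g g'
    rw [InfinitePlace.mk_eq_iff]
    constructor
    · rintro (h | h)
      · refine ⟨g' * g⁻¹, hfix _ (fun x => ?_), 1, Subgroup.one_mem _, by group⟩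
        have h1 := RingHom.congr_fun h x
        change φ₀ (g⁻¹ • (x : K)) = φ₀ (g'⁻¹ • (x : K)) at h1
        have h2 := φ₀.injective h1
        rw [mul_smul, h2, smul_inv_smul]
      · refine ⟨g' * c * g⁻¹, hfix _ (fun x => ?_), c⁻¹, Subgroup.inv_mem _ (Subgroup.mem_zpowers c),
          by group⟩
        have h1 := RingHom.congr_fun h x
        rw [ComplexEmbedding.conjugate_coe_eq] at h1
        change starRingEnd ℂ (φ₀ (g⁻¹ • (x : K))) = φ₀ (g'⁻¹ • (x : K)) at h1
        rw [← hc] at h1
        have h2 := φ₀.injective h1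
        rw [mul_smul, mul_smul, h2, smul_inv_smul]
    · rintro ⟨w, hw, d, hd, rfl⟩
      rcases eie_mem_zpowers_conj φ₀ c hc hd with rfl | rfl
      · left
        ext x
        change φ₀ (g⁻¹ • (x : K)) = φ₀ ((w * g * 1)⁻¹ • (x : K))
        rw [mul_one, mul_inv_rev, mul_smul]
        congr 2
        rw [eq_comm, inv_smul_eq_iff, hWfix w hw x]
      · right
        ext x
        rw [ComplexEmbedding.conjugate_coe_eq]
        change starRingEnd ℂ (φ₀ (g⁻¹ • (x : K))) = φ₀ ((w * g * d)⁻¹ • (x : K))
        rw [← hc, mul_inv_rev, mul_inv_rev, mul_smul, mul_smul, hcinv]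
        congr 3
        rw [eq_comm, inv_smul_eq_iff, hWfix w hw x]

end Infinite

end

end Fermat.Agent.TW
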