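import Fermat.Agent.Lib.TW.Euler.InputE.Places
import Fermat.Agent.Lib.CFT.Global.FirstIneq
import Fermat.Agent.Lib.CFT.Bridge.TowerModules

/-!
# P10 / G4 leaf (E), part 3: the rank of the `W`-invariants of the `S`-units

`eie_rank_general` : Dirichlet's `S`-unit theorem for the fixed field of `W`, in the form needed by
`EulerInput.rank`.
-/

set_option autoImplicit false
set_option linter.style.haveILetI false
set_option linter.unusedSectionVars false

namespace Fermat.Agent.TW

open Fermat.Agent.CFT Fermat.Agent.CFT.Global Fermat.Agent.CFT.Bridge NumberField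

noncomputable section

variable {K : Type} [Field K] [NumberField K] {G : Type} [Group G]
  [Finite G] [MulSemiringAction G K] [IsGaloisGroup G ℚ K] (S : Finset Nat.Primes)

/-- the `W`-invariants of the `S`-units are the `S`-units of the fixed field (rank form) -/
theorem eie_finrank_inv_sunits (W : Subgroup G) :
    Module.finrank ℤ (ecInv (Rep.ofMulDistribMulAction G (SUnits S K)) W) =
      Module.finrank ℤ
        (Additive (SUnits S (FixedPoints.intermediateField W : IntermediateField ℚ K))) := by
  set F : IntermediateField ℚ K := FixedPoints.intermediateField W with hF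
  let φ : Additive (SUnits S F) →ₗ[ℤ] Additive (SUnits S K) :=
    (MonoidHom.toAdditive (SUnits.baseChange (K := F) (L := K) S)).toIntLinearMap
  have hφinj : Function.Injective φ := fun x y h => SUnits.baseChange_injective S h
  have hmem : ∀ x, φ x ∈ ecInv (Rep.ofMulDistribMulAction G (SUnits S K)) W := by
    intro x w
    apply congrArg Additive.ofMul
    apply Subtype.ext
    apply Units.ext
    change (w : G) • algebraMap F K ((x.toMul : SUnits S F) : Fˣ) = algebraMap F K _
    exact ((x.toMul : SUnits S F) : Fˣ).1.2 w
  symm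
  let P : Submodule ℤ (Additive (SUnits S K)) := ecInv (Rep.ofMulDistribMulAction G (SUnits S K)) W
  change Module.finrank ℤ (Additive (SUnits S F)) = Module.finrank ℤ P
  refine LinearEquiv.finrank_eq (LinearEquiv.ofBijective (φ.codRestrict P hmem) ⟨?_, ?_⟩)
  · intro x y h
    exact hφinj (congrArg Subtype.val h)
  · rintro ⟨y, hy⟩
    have hy' : ∀ w : W, (w : G) • (((y.toMul : SUnits S K) : Kˣ) : K) =
        ((y.toMul : SUnits S K) : Kˣ) := by
      intro w
      have h1 := hy w
      have h2 := congrArg (fun z : Additive (SUnits S K) => (((z.toMul : SUnits S K) : Kˣ) : K)) h1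
      exact h2
    have hyF : (((y.toMul : SUnits S K) : Kˣ) : K) ∈ F := fun w => hy' w
    have hy0 : (⟨_, hyF⟩ : F) ≠ 0 := by
      intro h
      have := congrArg (fun z : F => (z : K)) h
      exact (Units.ne_zero _) this
    have hyu : Units.map (algebraMap F K : F →* K) (Units.mk0 ⟨_, hyF⟩ hy0) =
        ((y.toMul : SUnits S K) : Kˣ) := Units.ext rfl
    have hyS : Units.mk0 (⟨_, hyF⟩ : F) hy0 ∈ SUnits S F := by
      rw [← map_algebraMap_mem_SUnits_iff (L := K), hyu]
      exact (y.toMul : SUnits S K).2
    refine ⟨Additive.ofMul ⟨Units.mk0 ⟨_, hyF⟩ hy0, hyS⟩, ?_⟩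
    apply Subtype.ext
    exact congrArg Additive.ofMul (Subtype.ext hyu)


/-- **Dirichlet's `S`-unit theorem for the fixed fields**, in terms of double cosets -/
theorem eie_rank_general (W : Subgroup G) (φ₀ : K →+* ℂ) (c : G)
    (hc : ∀ x : K, φ₀ (c • x) = starRingEnd ℂ (φ₀ x))
    (x₀ : ∀ q : ↥S, Place ((q : Nat.Primes) : ℕ) K) :
    Module.finrank ℤ (ecInv (Rep.ofMulDistribMulAction G (SUnits S K)) W) + 1 =
      ecNumPlaces W (Subgroup.zpowers c) + ∑ q : ↥S, ecNumPlaces W (decompGroup G (x₀ q)) := by
  have hinf := eie_card_infinitePlace_fixedField W φ₀ c hc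
  have hinv := eie_finrank_inv_sunits (K := K) S W
  have hsum := SUnits.finrank_eq_sum S (FixedPoints.intermediateField W : IntermediateField ℚ K)
  rw [← Finset.sum_coe_sort S] at hsum
  have h1 : ∑ q : ↥S, Nat.card (Place ((q : Nat.Primes) : ℕ)
      (FixedPoints.intermediateField W : IntermediateField ℚ K)) =
      ∑ q : ↥S, ecNumPlaces W (decompGroup G (x₀ q)) :=
    Finset.sum_congr rfl (fun q _ => eie_card_place_fixedField W (x₀ q))
  have h2 : Units.rank (FixedPoints.intermediateField W : IntermediateField ℚ K) + 1 =
      Nat.card (InfinitePlace (FixedPoints.intermediateField W : IntermediateField ℚ K)) := by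
    unfold Units.rank
    rw [Nat.card_eq_fintype_card]
    have : 0 < Fintype.card
        (InfinitePlace (FixedPoints.intermediateField W : IntermediateField ℚ K)) :=
      Fintype.card_pos
    omega
  rw [hinv, hsum, h1, ← hinf, ← h2]
  ring

end

end Fermat.Agent.TW
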